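import Mathlib
import Fermat.Agent.E.Desc.Kp.ModDefs
import Fermat.Agent.Lib.BadRed.PNew.SpDef
import Fermat.Agent.Lib.BadRed.Nodal.P.OrdRepMain
import Fermat.Agent.R38.SpineDefs

set_option autoImplicit false
set_option linter.style.haveILetI false
set_option linter.unusedSectionVars false
set_option linter.unusedVariables false
set_option synthInstance.maxHeartbeats 400000
set_option maxHeartbeats 1000000

/-!
# Row 38 (S44), junction J-E (helper12): a class outside `K'` has a reduction which is not a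
`p`-th power

Level `D.Q * D.R`, `p = D.Q`, `A | p`, `S₁ = EKp.kpS D A hq hA hqR` the Gauss setup `v_∞`,
`w = atkinLehner D`, `K' = PNew.kPrime D hM A p`.

`psiNe_of_not_mem_kPrime` : `p E = div g`, `[E] ∉ K'`  ⟹  the reduction of `g` or of `w g` (for one,
equivalently every, scaling constant) is not a `p`-th power in the residue function field.

Proof: if both reductions are `p`-th powers, `(R0)` (`NodalP.ordRepStatement`, helper46) for the
modular nodal setup `EKp.kpN` gives `c`, `φ` with both reductions of `g' = c φ ^ p g` equal to `1`;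
`g'` is a Kummer generator of the same class, so the class lies in `K'`.
-/

noncomputable section

namespace Fermat.Agent.R38E

open IntermediateField ModularCurve AlgebraicCurve Fermat.Agent.F3 Fermat.Agent.F3G
  Fermat.Agent.GaussInt Fermat.Agent.AtkinLehner Fermat.Agent.Deuring Fermat.Agent.RR
  Fermat.Agent.BadRed Fermat.Agent.F3I2 Fermat.Agent.EKp

local notation "Qb" => AlgebraicClosure ℚ

attribute [local instance] Fermat.Agent.BadRed.fwFintype

variable (D : ALData) [NeZero D.Q] [NeZero D.R] [NeZero (D.Q * D.R)]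
  (A : ValuationSubring Qb) (hq : D.Q.Prime) (hA : A.LiesOverPrime D.Q) (hqR : ¬ D.Q ∣ D.R)
  [Fact D.Q.Prime] [CharP (IsLocalRing.ResidueField A) D.Q]
  [PerfectRing (IsLocalRing.ResidueField A) D.Q]

/-- `(R0)` for the modular nodal setup. -/
theorem kpN_ordRep (haux : AuxLevelOK D.Q D.R) :
    PTor.OrdRepStatement (kpN D A hq hA hqR haux) D.Q := by
  haveI := infinite_residue A
  exact NodalP.ordRepStatement D.Q (fun c => IsAlgClosed.exists_pow_nat_eq c hq.pos)
    (kpN_genusRel D A hq hA hqR haux)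

/-- a function with `S₁`-reduction `1` has Gauss reduction `1`. -/
theorem redAt_refl_of_red_eq_one {f : FBar (D.Q * D.R)}
    (h : (kpS D A hq hA hqR).red f = 1) :
    RedAt A (AlgEquiv.refl : FBar (D.Q * D.R) ≃ₐ[Qb] FBar (D.Q * D.R)) f 1 := by
  have hS := isGaussSetup_gaussSetupBad D hq hqR A hA
  have hmem : f ∈ (kpS D A hq hA hqR).Ov :=
    (kpS D A hq hA hqR).mem_of_red_ne_zero (by rw [h]; exact one_ne_zero)
  refine ⟨(hS.mem_iff f).mp hmem, ?_⟩
  have h1 := hS.coe_red f hmem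
  rw [h] at h1
  rw [AlgEquiv.coe_refl, id, ← h1]
  rfl

/-- **J-E**: a class outside `K'` has a reduction which is not a `p`-th power. -/
theorem psiNe_of_not_mem_kPrime (haux : AuxLevelOK D.Q D.R)
    (hM : D.Q * D.R = D.Q * D.R)
    {E : Divisor.degZero (K := Qb) (F := FBar (D.Q * D.R))} {g : FBar (D.Q * D.R)}
    (hR : IsRootDiv D.Q g E)
    (hnot : (Pic0.mk E : JZero (D.Q * D.R)) ∉ PNew.kPrime D hM A D.Q) :
    (∃ r, R38.spIsRedInf D A hq hA hqR g r ∧
        ∀ h : modularFunctionFieldFullC (IsLocalRing.ResidueField A) D.R, r ≠ h ^ D.Q) ∨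
      (∃ r, R38.spIsRedInf D A hq hA hqR (atkinLehner D g) r ∧
        ∀ h : modularFunctionFieldFullC (IsLocalRing.ResidueField A) D.R, r ≠ h ^ D.Q) := by
  classical
  by_contra hcon
  rw [not_or] at hcon
  obtain ⟨hc1, hc2⟩ := hcon
  apply hnot
  have hg0 : g ≠ 0 := hR.1
  have hwg0 : atkinLehner D g ≠ 0 := (map_ne_zero_iff _ (atkinLehner D).injective).mpr hg0
  set S := kpS D A hq hA hqR with hS
  set N := kpN D A hq hA hqR haux with hN
  -- the two reductions are `p`-th powers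
  have key : ∀ f : FBar (D.Q * D.R), f ≠ 0 →
      (¬ ∃ r, R38.spIsRedInf D A hq hA hqR f r ∧
        ∀ h : modularFunctionFieldFullC (IsLocalRing.ResidueField A) D.R, r ≠ h ^ D.Q) →
      ∃ c : Qb, c ≠ 0 ∧ ∃ h : modularFunctionFieldFullC (IsLocalRing.ResidueField A) D.R,
        h ≠ 0 ∧ S.red (f / algebraMap Qb (FBar (D.Q * D.R)) c) = h ^ D.Q := by
    intro f hf hno
    obtain ⟨c, hc0, hred⟩ := S.exists_scale hf
    have e : c⁻¹ • f = f / algebraMap Qb (FBar (D.Q * D.R)) c := by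
      rw [Algebra.smul_def, map_inv₀, div_eq_mul_inv]
      exact mul_comm _ _
    rw [e] at hred
    have hno' := not_exists.mp hno (S.red (f / algebraMap Qb (FBar (D.Q * D.R)) c))
    rw [not_and] at hno'
    have h1 := hno' ⟨c, hc0, S.mem_of_red_ne_zero hred, rfl, hred⟩
    rw [not_forall] at h1
    obtain ⟨h, hh⟩ := h1
    rw [not_not] at hh
    refine ⟨c, hc0, h, ?_, hh⟩
    rintro rfl
    rw [zero_pow hq.ne_zero] at hh
    exact hred hh
  have h1 := key g hg0 hc1
  have h2 : ∃ c : Qb, c ≠ 0 ∧ ∃ h : modularFunctionFieldFullC (IsLocalRing.ResidueField A) D.R,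
      h ≠ 0 ∧ N.S₂.red (g / algebraMap Qb (FBar (D.Q * D.R)) c) = h ^ D.Q := by
    obtain ⟨c, hc0, h, hh0, hh⟩ := key (atkinLehner D g) hwg0 hc2
    refine ⟨c, hc0, h, hh0, ?_⟩
    rw [hN, kpN_S₂, valSetupZero_red, map_div₀, AlgEquiv.commutes]
    exact hh
  have hdvd : ∀ P : Place Qb (FBar (D.Q * D.R)), ((D.Q : ℕ) : ℤ) ∣ P.ord g :=
    fun P => ⟨_, (hR.2 P).symm⟩
  obtain ⟨φ, c, D₀, hφ0, hc0, -, -, hord, hr1, hr2⟩ :=
    kpN_ordRep D A hq hA hqR haux g hg0 hdvd h1 h2
  -- the new generator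
  have hcF : algebraMap Qb (FBar (D.Q * D.R)) c ≠ 0 := by simpa using hc0
  set g' : FBar (D.Q * D.R) := algebraMap Qb (FBar (D.Q * D.R)) c * φ ^ D.Q * g with hg'
  have hg'0 : g' ≠ 0 := mul_ne_zero (mul_ne_zero hcF (pow_ne_zero _ hφ0)) hg0
  haveI := PNew.hasPD_bar (D.Q * D.R)
  obtain ⟨E', hE'⟩ := exists_isRootDiv (K := Qb) hq.pos hg'0 (fun v => ⟨_, hord v⟩)
  have hclass : (Pic0.mk E' : JZero (D.Q * D.R)) = Pic0.mk E := by
    have h3 : IsRootDiv D.Q (algebraMap Qb (FBar (D.Q * D.R)) c⁻¹ * (g' * g⁻¹)) (E' + -E) :=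
      (hE'.mul hR.inv).const_mul (inv_ne_zero hc0)
    have e : algebraMap Qb (FBar (D.Q * D.R)) c⁻¹ * (g' * g⁻¹) = φ ^ D.Q := by
      rw [hg', map_inv₀]
      field_simp
    rw [e] at h3
    have h4 := h3.mk_eq_zero_of_pow hq.pos
    have h5 : (Pic0.mk (E' + -E) : JZero (D.Q * D.R)) = Pic0.mk E' - Pic0.mk E := by
      rw [← sub_eq_add_neg]
      rfl
    rw [h5] at h4
    exact sub_eq_zero.mp h4
  rw [PNew.mem_kPrime_iff]
  refine ⟨1, E', g', ?_, hclass, ?_, ?_⟩
  · rw [pow_one]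
    exact hE'
  · exact redAt_refl_of_red_eq_one D A hq hA hqR hr1
  · rw [show wAt D hM = atkinLehner D from wAt_eq_rfl D]
    have h6 : S.red (atkinLehner D g') = 1 := by
      rw [← valSetupZero_red]
      exact hr2
    have h7 := redAt_refl_of_red_eq_one D A hq hA hqR h6
    exact h7

/-- **J-E** in the language of the spine (`R38/SpineDefs.lean`): a Kummer generator of a class
outside `K'` has `Ψ ≠ 0`. -/
theorem blockE (haux : AuxLevelOK D.Q D.R) (hM : D.Q * D.R = D.Q * D.R)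
    {y : JZero (D.Q * D.R)} {E : Divisor.degZero (K := Qb) (F := FBar (D.Q * D.R))}
    {g : FBar (D.Q * D.R)} (hK : R38.spIsKumGen D.Q y E g)
    (hnot : y ∉ PNew.kPrime D hM A D.Q) : R38.spPsiNe D A hq hA hqR g := by
  obtain ⟨hR, rfl⟩ := hK
  exact psiNe_of_not_mem_kPrime D A hq hA hqR haux hM hR hnot

end Fermat.Agent.R38E
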