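import Mathlib
import Fermat.Agent.R38.E.PsiNe
import Fermat.Agent.R38.Spine

set_option autoImplicit false
set_option linter.style.haveILetI false
set_option linter.unusedSectionVars false
set_option linter.unusedVariables false
set_option synthInstance.maxHeartbeats 400000
set_option maxHeartbeats 1000000

/-!
# Row 38 (S44), junction J-E (helper12), in the exact form of the spine: `R38.SpJE`
-/

noncomputable section

namespace Fermat.Agent.R38E

/-- **J-E**, the junction of the spine. -/
theorem spJE : Fermat.Agent.R38.SpJE := by
  intro D _ _ _ A hq hA hqR _ _ _ h5 y _ hnot E g hK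
  exact blockE D A hq hA hqR (Fermat.Agent.BadRed.AuxLevelOK.of_five_le h5) rfl hK hnot

end Fermat.Agent.R38E
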